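import Fermat.Agent.Cannonball.PellThree
import Fermat.Agent.SquareSequences.Ljunggren

/-!
# The square pyramidal numbers that are squares

After splitting into coprime factors, odd `x` leads to the Pell equation and even `x` to quartics.
-/

set_option autoImplicit false

open FA.SquareSequences

namespace FA.Cannonball

theorem triple_sq {a b c z : ℤ} (ha : 0 ≤ a) (hb : 0 ≤ b) (hc : 0 ≤ c) (hab : IsCoprime a b)
    (hac : IsCoprime a c) (hbc : IsCoprime b c) (h : a * b * c = z ^ 2) :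
    (∃ p, a = p ^ 2) ∧ (∃ q, b = q ^ 2) ∧ ∃ r, c = r ^ 2 :=
  ⟨pow_of_coprime_mul_nonneg even_two two_ne_zero (hab.mul_right hac) ha (by rw [← h]; ring),
    pow_of_coprime_mul_nonneg even_two two_ne_zero (hab.symm.mul_right hbc) hb
      (by rw [← h]; ring),
    pow_of_coprime_mul_nonneg even_two two_ne_zero (hac.symm.mul_right hbc.symm) hc
      (by rw [← h]; ring)⟩

theorem sq_emod_three (p : ℤ) : p ^ 2 % 3 ≠ 2 := by
  obtain ⟨k, rfl | rfl | rfl⟩ : ∃ k, p = 3 * k ∨ p = 3 * k + 1 ∨ p = 3 * k + 2 :=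
    ⟨p / 3, by omega⟩ <;> ring_nf <;> omega

theorem coprime_of_comb' {a b : ℤ} (r s : ℤ) (h : r * a + s * b = 1) : IsCoprime a b := ⟨r, s, h⟩

/-- Odd `x`. -/
theorem odd_case {x y : ℤ} (hx : 0 ≤ x) (hodd : Odd x)
    (h : x * (x + 1) * (2 * x + 1) = 6 * y ^ 2) : x = 1 := by
  obtain ⟨t, rfl⟩ := hodd
  have ht : 0 ≤ t := by omega
  have h3 : (2 * t + 1) * (t + 1) * (4 * t + 3) = 3 * y ^ 2 := by linarith
  have c1 : IsCoprime (2 * t + 1) (t + 1) := coprime_of_comb' (-1) 2 (by ring)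
  have c2 : IsCoprime (2 * t + 1) (4 * t + 3) := coprime_of_comb' (-2) 1 (by ring)
  have c3 : IsCoprime (t + 1) (4 * t + 3) := coprime_of_comb' 4 (-1) (by ring)
  rcases (show t % 3 = 0 ∨ t % 3 = 1 ∨ t % 3 = 2 by omega) with e | e | e
  · obtain ⟨c, hc⟩ : (3 : ℤ) ∣ 4 * t + 3 := by omega
    rw [hc] at c2 c3
    obtain ⟨⟨p, hp⟩, ⟨q, hq⟩, ⟨r, hr⟩⟩ := triple_sq (a := 2 * t + 1) (b := t + 1) (c := c)
      (z := y) (by omega) (by omega) (by omega) c1 c2.of_mul_right_right c3.of_mul_right_right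
      (by rw [hc] at h3; linarith)
    have hv : (8 * q ^ 2 - 1) = 4 * p ^ 2 + 3 := by rw [← hp, ← hq]; ring
    have hn : (8 * q ^ 2 - 1) ^ 2 - 3 * (4 * q * r) ^ 2 = 1 := by
      rw [show (4 * q * r) ^ 2 = 16 * q ^ 2 * r ^ 2 by ring, ← hq, ← hr]
      linear_combination (16 * (t + 1)) * hc
    have := eq_seven hn hv
    omega
  · obtain ⟨a, ha⟩ : (3 : ℤ) ∣ 2 * t + 1 := by omega
    rw [ha] at c1 c2
    obtain ⟨-, ⟨q, hq⟩, -⟩ := triple_sq (a := a) (b := t + 1) (c := 4 * t + 3)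
      (z := y) (by omega) (by omega) (by omega) c1.of_mul_left_right c2.of_mul_left_right c3
      (by rw [ha] at h3; linarith)
    have := sq_emod_three q
    omega
  · obtain ⟨b, hb⟩ : (3 : ℤ) ∣ t + 1 := by omega
    rw [hb] at c1 c3
    obtain ⟨⟨p, hp⟩, -, -⟩ := triple_sq (a := 2 * t + 1) (b := b) (c := 4 * t + 3)
      (z := y) (by omega) (by omega) (by omega) c1.of_mul_right_right c2 c3.of_mul_left_right
      (by rw [hb] at h3; linarith)
    have := sq_emod_three p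
    omega

theorem eq_eight_fourth {v a : ℤ} (hv : 0 ≤ v) (h : v * (v + 1) = 8 * a ^ 4) : a = 0 := by
  have hco : IsCoprime v (v + 1) := coprime_of_comb' (-1) 1 (by ring)
  have h4 : Even 4 := ⟨2, rfl⟩
  have h8 : IsCoprime (8 : ℤ) v ∨ IsCoprime (8 : ℤ) (v + 1) := by
    rcases Int.even_or_odd v with ⟨k, hk⟩ | ⟨k, hk⟩
    · exact Or.inr (show IsCoprime ((2 : ℤ) ^ 3) (v + 1) from
        (coprime_of_comb' (-k) 1 (by omega) : IsCoprime (2 : ℤ) (v + 1)).pow_left)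
    · exact Or.inl (show IsCoprime ((2 : ℤ) ^ 3) v from
        (coprime_of_comb' (-k) 1 (by omega) : IsCoprime (2 : ℤ) v).pow_left)
  rcases h8 with h8 | h8
  · obtain ⟨w, hw⟩ : (8 : ℤ) ∣ v + 1 := h8.dvd_of_dvd_mul_left ⟨a ^ 4, h⟩
    obtain ⟨c, hc⟩ := pow_of_coprime_mul_nonneg h4 four_ne_zero
      (hw ▸ hco).of_mul_right_right hv (z := a) (b := w) (by rw [hw] at h; linarith)
    exfalso
    obtain ⟨k, rfl⟩ : Odd c := (Int.odd_pow' four_ne_zero).1 (hc ▸ ⟨4 * w - 1, by omega⟩)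
    rw [show (2 * k + 1) ^ 4 = 8 * (2 * k ^ 4 + 4 * k ^ 3 + 3 * k ^ 2 + k) + 1 by ring] at hc
    omega
  · obtain ⟨w, hw⟩ : (8 : ℤ) ∣ v := h8.dvd_of_dvd_mul_right ⟨a ^ 4, h⟩
    have hco' : IsCoprime w (v + 1) := (hw ▸ hco : IsCoprime (8 * w) (v + 1)).of_mul_left_right
    have hm : w * (v + 1) = a ^ 4 := by rw [hw] at h ⊢; linarith
    obtain ⟨c, hc⟩ := pow_of_coprime_mul_nonneg h4 four_ne_zero hco' (by omega) hm
    obtain ⟨d, hd⟩ := pow_of_coprime_mul_nonneg h4 four_ne_zero hco'.symm (by omega)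
      (z := a) (by rw [mul_comm]; exact hm)
    rcases sq_eq_eight_quartic_add_one (u := d ^ 2) (s := c) (sq_nonneg d)
      (by rw [← pow_mul]; norm_num; omega) with rfl | hc1
    · rw [hc] at hm
      simpa using hm.symm
    · exfalso
      rw [show c ^ 4 = (c ^ 2) ^ 2 by ring, hc1] at hc
      have : d ^ 4 = 9 := by omega
      have hd2 : d ^ 2 = 3 := by nlinarith [sq_nonneg d]
      obtain ⟨k, rfl | rfl⟩ : ∃ k, d = 2 * k ∨ d = 2 * k + 1 := ⟨d / 2, by omega⟩ <;>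
        ring_nf at hd2 <;> omega

theorem twelve_case {a b : ℤ} (h : (6 * a ^ 2) ^ 2 - 6 * (6 * a ^ 2) * b ^ 2 + (b ^ 2) ^ 2 = 1) :
    a ^ 2 * b ^ 2 = 0 ∨ a ^ 2 * b ^ 2 = 1 := by
  rcases sq_eq_eight_quartic_add_one (u := |6 * a ^ 2 - 3 * b ^ 2|) (s := b) (abs_nonneg _)
    (by rw [sq_abs]; linear_combination h) with rfl | hb
  · simp
  · rw [hb] at h ⊢
    have h2 : a ^ 2 * (a ^ 2 - 1) = 0 := by
      linarith [show (6 * a ^ 2) ^ 2 - 6 * (6 * a ^ 2) * 1 + 1 ^ 2 =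
        36 * (a ^ 2 * (a ^ 2 - 1)) + 1 by ring]
    rcases mul_eq_zero.1 h2 with e | e
    · simp [e]
    · exact Or.inr (by linarith)

theorem six_case {a b : ℤ}
    (h : (2 * a ^ 2) ^ 2 - 6 * (2 * a ^ 2) * (3 * b ^ 2) + (3 * b ^ 2) ^ 2 = 1) : a = 0 := by
  have hu : |3 * b ^ 2 - 6 * a ^ 2| ^ 2 = 32 * a ^ 4 + 1 := by rw [sq_abs]; linear_combination h
  obtain ⟨v, hv⟩ : Odd |3 * b ^ 2 - 6 * a ^ 2| :=
    (Int.odd_pow' two_ne_zero).1 (hu ▸ ⟨16 * a ^ 4, by ring⟩)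
  have hnn := abs_nonneg (3 * b ^ 2 - 6 * a ^ 2)
  rw [hv] at hu hnn
  exact eq_eight_fourth (v := v) (by omega) (by linarith)

/-- The split of `A B = 6 w ²`. -/
theorem split_six {A B w : ℤ} (hA : 0 ≤ A) (hB : 0 ≤ B) (hco : IsCoprime A B)
    (h : A * B = 6 * w ^ 2) :
    ∃ a b : ℤ, a ^ 2 * b ^ 2 = w ^ 2 ∧ (A = 6 * a ^ 2 ∧ B = b ^ 2 ∨ A = b ^ 2 ∧ B = 6 * a ^ 2 ∨
      A = 2 * a ^ 2 ∧ B = 3 * b ^ 2 ∨ A = 3 * b ^ 2 ∧ B = 2 * a ^ 2) := by
  have sq : ∀ A' B' : ℤ, 0 ≤ A' → 0 ≤ B' → IsCoprime A' B' → A' * B' = w ^ 2 →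
      (∃ p, A' = p ^ 2) ∧ ∃ q, B' = q ^ 2 := fun A' B' h1 h2 h3 h4 =>
    sq_sq_of_coprime_mul h3 h1 h2 h4
  rcases Int.prime_two.dvd_or_dvd (show (2 : ℤ) ∣ A * B from ⟨3 * w ^ 2, by linarith⟩) with
    ⟨A', rfl⟩ | ⟨B', rfl⟩
  · rcases Int.prime_three.dvd_or_dvd (show (3 : ℤ) ∣ A' * B from ⟨w ^ 2, by linarith⟩) with
      ⟨A'', rfl⟩ | ⟨B'', rfl⟩
    · obtain ⟨⟨p, rfl⟩, ⟨q, rfl⟩⟩ := sq A'' B (by omega) hB
        hco.of_mul_left_right.of_mul_left_right (by linarith)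
      exact ⟨p, q, by linarith, Or.inl ⟨by ring, rfl⟩⟩
    · obtain ⟨⟨p, rfl⟩, ⟨q, rfl⟩⟩ := sq A' B'' (by omega) (by omega)
        hco.of_mul_left_right.of_mul_right_right (by linarith)
      exact ⟨p, q, by linarith, Or.inr (Or.inr (Or.inl ⟨rfl, rfl⟩))⟩
  · rcases Int.prime_three.dvd_or_dvd (show (3 : ℤ) ∣ A * B' from ⟨w ^ 2, by linarith⟩) with
      ⟨A'', rfl⟩ | ⟨B'', rfl⟩
    · obtain ⟨⟨p, rfl⟩, ⟨q, rfl⟩⟩ := sq A'' B' (by omega) (by omega)
        hco.of_mul_left_right.of_mul_right_right (by linarith)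
      exact ⟨q, p, by linarith, Or.inr (Or.inr (Or.inr ⟨rfl, rfl⟩))⟩
    · obtain ⟨⟨p, rfl⟩, ⟨q, rfl⟩⟩ := sq A B'' hA (by omega)
        hco.of_mul_right_right.of_mul_right_right (by linarith)
      exact ⟨q, p, by linarith, Or.inr (Or.inl ⟨rfl, by ring⟩)⟩

/-- Even `x`. -/
theorem even_case {x y : ℤ} (hx : 0 ≤ x) (hev : Even x)
    (h : x * (x + 1) * (2 * x + 1) = 6 * y ^ 2) : x = 0 ∨ x = 24 := by
  obtain ⟨t, rfl⟩ := hev.two_dvd
  have ht : 0 ≤ t := by omega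
  have h3 : t * (2 * t + 1) * (4 * t + 1) = 3 * y ^ 2 := by linarith
  have c1 : IsCoprime t (2 * t + 1) := coprime_of_comb' (-2) 1 (by ring)
  have c2 : IsCoprime t (4 * t + 1) := coprime_of_comb' (-4) 1 (by ring)
  have c3 : IsCoprime (2 * t + 1) (4 * t + 1) := coprime_of_comb' 2 (-1) (by ring)
  rcases (show t % 3 = 0 ∨ t % 3 = 1 ∨ t % 3 = 2 by omega) with e | e | e
  · obtain ⟨a', rfl⟩ : (3 : ℤ) ∣ t := by omega
    obtain ⟨⟨p, hp⟩, ⟨q, hq⟩, ⟨r, hr⟩⟩ := triple_sq (a := a') (b := 2 * (3 * a') + 1)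
      (c := 4 * (3 * a') + 1) (z := y) (by omega) (by omega) (by omega) c1.of_mul_left_right
      c2.of_mul_left_right c3 (by linarith)
    subst hp
    obtain ⟨k, hk⟩ : Odd |q| := (Int.odd_pow' two_ne_zero).1
      (by rw [sq_abs, ← hq]; exact ⟨3 * p ^ 2, by ring⟩)
    obtain ⟨l, hl⟩ : Odd |r| := (Int.odd_pow' two_ne_zero).1
      (by rw [sq_abs, ← hr]; exact ⟨6 * p ^ 2, by ring⟩)
    have hq' : (2 * k + 1) ^ 2 = 6 * p ^ 2 + 1 := by rw [← hk, sq_abs, ← hq]; ring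
    have hr' : (2 * l + 1) ^ 2 = 12 * p ^ 2 + 1 := by rw [← hl, sq_abs, ← hr]; ring
    have hAB : (l - k) * (l + k + 1) * 4 = 6 * p ^ 2 := by linear_combination hr' - hq'
    obtain ⟨w, rfl⟩ : (2 : ℤ) ∣ p := Int.prime_two.dvd_of_dvd_pow (n := 2) (by omega)
    have hk0 := abs_nonneg q
    have hl0 := abs_nonneg r
    have hkl : k ≤ l := by nlinarith
    have hAB' : (l - k) * (l + k + 1) = 6 * w ^ 2 := by linarith
    have hco : IsCoprime (l - k) (l + k + 1) := by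
      have h1 : IsCoprime (2 * k + 1) (2 * l + 1) := by
        refine (IsCoprime.pow_iff two_pos two_pos).1 ?_
        rw [hq', hr']
        exact coprime_of_comb' 2 (-1) (by ring)
      obtain ⟨u, u', hu⟩ := h1
      exact ⟨u' - u, u + u', by linear_combination hu⟩
    have hrel : (l - k) ^ 2 - 6 * (l - k) * (l + k + 1) + (l + k + 1) ^ 2 = 1 := by
      linear_combination hq' - 4 * hAB'
    obtain ⟨a, b, hab, hc⟩ := split_six (by omega) (by omega) hco hAB'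
    have key : w ^ 2 = 0 ∨ w ^ 2 = 1 := by
      rcases hc with ⟨e1, e2⟩ | ⟨e1, e2⟩ | ⟨e1, e2⟩ | ⟨e1, e2⟩ <;> rw [e1, e2] at hrel <;>
        rw [← hab]
      · exact twelve_case hrel
      · exact twelve_case (by linear_combination hrel)
      · rw [six_case hrel]; simp
      · rw [six_case (a := a) (b := b) (by linear_combination hrel)]; simp
    rw [mul_pow]
    omega
  · obtain ⟨b', hb⟩ : (3 : ℤ) ∣ 2 * t + 1 := by omega
    rw [hb] at c1 c3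
    obtain ⟨⟨p, hp⟩, -, ⟨r, hr⟩⟩ := triple_sq (a := t) (b := b') (c := 4 * t + 1) (z := y)
      ht (by omega) (by omega) c1.of_mul_right_right c2 c3.of_mul_left_right
      (by rw [hb] at h3; linarith)
    have := sq_emod_three r
    omega
  · obtain ⟨c', hc⟩ : (3 : ℤ) ∣ 4 * t + 1 := by omega
    rw [hc] at c2 c3
    obtain ⟨⟨p, hp⟩, -, -⟩ := triple_sq (a := t) (b := 2 * t + 1) (c := c') (z := y)
      ht (by omega) (by omega) c1 c2.of_mul_right_right c3.of_mul_right_right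
      (by rw [hc] at h3; linarith)
    have := sq_emod_three p
    omega

/-- All integral solutions. -/
theorem solutions {x y : ℤ} : x * (x + 1) * (2 * x + 1) = 6 * y ^ 2 ↔
    (x = 0 ∨ x = -1) ∧ y = 0 ∨ x = 1 ∧ (y = 1 ∨ y = -1) ∨ x = 24 ∧ (y = 70 ∨ y = -70) := by
  constructor
  · intro h
    rcases lt_or_ge x 0 with hneg | hpos
    · have h1 : 0 ≤ -x * (-(x + 1)) := mul_nonneg (by omega) (by omega)
      have hle : y ^ 2 ≤ 0 := by
        nlinarith [mul_nonpos_of_nonneg_of_nonpos h1 (show 2 * x + 1 ≤ 0 by omega)]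
      have hy : y = 0 := (pow_eq_zero_iff two_ne_zero).1 (le_antisymm hle (sq_nonneg y))
      subst hy
      simp only [mul_eq_zero, zero_pow two_ne_zero, mul_zero] at h
      exact Or.inl ⟨Or.inr (by omega), rfl⟩
    rcases Int.even_or_odd x with he | ho
    · rcases even_case hpos he h with rfl | rfl
      · exact Or.inl ⟨Or.inl rfl, (pow_eq_zero_iff two_ne_zero).1 (by linarith)⟩
      · exact Or.inr (Or.inr ⟨rfl, sq_eq_sq_iff_eq_or_eq_neg.1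
          (show y ^ 2 = (70 : ℤ) ^ 2 by linarith)⟩)
    · obtain rfl := odd_case hpos ho h
      exact Or.inr (Or.inl ⟨rfl, sq_eq_sq_iff_eq_or_eq_neg.1
        (show y ^ 2 = (1 : ℤ) ^ 2 by linarith)⟩)
  · rintro (⟨rfl | rfl, rfl⟩ | ⟨rfl, rfl | rfl⟩ | ⟨rfl, rfl | rfl⟩) <;> norm_num

theorem six_mul_sum_sq (n : ℕ) : 6 * ∑ i ∈ Finset.range (n + 1), (i : ℤ) ^ 2 =
    (n : ℤ) * (n + 1) * (2 * n + 1) := by
  induction n with
  | zero => simp
  | succ n ih =>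
    rw [Finset.sum_range_succ, mul_add, ih]
    push_cast
    ring

end FA.Cannonball
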