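import Mathlib

/-!
# The solutions of `v ² - 3 u ² = 1`

If `v = 4 M ² + 3` then `v = 7`: otherwise `v ≡ -7` modulo some `V (2 ^ e)`, `e ≥ 2`, a number
`≡ 1 (mod 8)` and `≡ 2 (mod 5)`, modulo which `-10` is not a square.
-/

set_option autoImplicit false

namespace FA.Cannonball

/-- The solutions of `v ² - 3 u ² = 1` in natural numbers. -/
def sol : ℕ → ℤ × ℤ
  | 0 => (1, 0)
  | n + 1 => (2 * (sol n).1 + 3 * (sol n).2, (sol n).1 + 2 * (sol n).2)

/-- The first component. -/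
def V (n : ℕ) : ℤ := (sol n).1

/-- The second component. -/
def U (n : ℕ) : ℤ := (sol n).2

theorem V_zero : V 0 = 1 := rfl

theorem U_zero : U 0 = 0 := rfl

theorem V_succ (n : ℕ) : V (n + 1) = 2 * V n + 3 * U n := rfl

theorem U_succ (n : ℕ) : U (n + 1) = V n + 2 * U n := rfl

theorem norm_eq_one (n : ℕ) : V n ^ 2 - 3 * U n ^ 2 = 1 := by
  induction n with
  | zero => simp [V_zero, U_zero]
  | succ n ih =>
    rw [V_succ, U_succ]
    linear_combination ih

theorem V_pos_U_nonneg (n : ℕ) : 0 < V n ∧ 0 ≤ U n := by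
  induction n with
  | zero => simp [V_zero, U_zero]
  | succ n ih =>
    rw [V_succ, U_succ]
    omega

theorem add_formula (a k : ℕ) :
    V (a + k) = V a * V k + 3 * U a * U k ∧ U (a + k) = U a * V k + V a * U k := by
  induction k with
  | zero => simp [V_zero, U_zero]
  | succ k ih =>
    rw [← add_assoc, V_succ, U_succ, V_succ, U_succ, ih.1, ih.2]
    constructor <;> ring

theorem V_two_mul (k : ℕ) : V (2 * k) = 2 * V k ^ 2 - 1 := by
  rw [two_mul, (add_formula k k).1]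
  linear_combination -(norm_eq_one k)

theorem U_two_mul (k : ℕ) : U (2 * k) = 2 * U k * V k := by
  rw [two_mul, (add_formula k k).2]
  ring

theorem modEq_mul (K j : ℕ) :
    V (2 * K * j) ≡ (-1) ^ j [ZMOD V K] ∧ U (2 * K * j) ≡ 0 [ZMOD V K] := by
  induction j with
  | zero => simp [V_zero, U_zero]
  | succ j ih =>
    have h1 : V (2 * K) ≡ -1 [ZMOD V K] := by
      rw [V_two_mul, Int.modEq_iff_dvd]
      exact ⟨-2 * V K, by ring⟩
    have h2 : U (2 * K) ≡ 0 [ZMOD V K] := by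
      rw [U_two_mul, Int.modEq_iff_dvd]
      exact ⟨-2 * U K, by ring⟩
    rw [Nat.mul_succ, (add_formula _ _).1, (add_formula _ _).2]
    constructor
    · have := (ih.1.mul h1).add ((ih.2.mul h2).mul_left 3)
      rw [mul_zero, mul_zero, add_zero] at this
      convert this using 1 <;> ring
    · have := (ih.2.mul h1).add (ih.1.mul h2)
      rw [zero_mul, mul_zero, add_zero] at this
      exact this

theorem V_two_pow (e : ℕ) : V (2 ^ (e + 2)) % 8 = 1 ∧ V (2 ^ (e + 2)) % 5 = 2 := by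
  induction e with
  | zero => decide
  | succ e ih =>
    rw [show 2 ^ (e + 1 + 2) = 2 * 2 ^ (e + 2) by ring, V_two_mul]
    obtain ⟨k, hk⟩ : ∃ k, V (2 ^ (e + 2)) = 8 * k + 1 := ⟨V (2 ^ (e + 2)) / 8, by omega⟩
    obtain ⟨l, hl⟩ : ∃ l, V (2 ^ (e + 2)) = 5 * l + 2 := ⟨V (2 ^ (e + 2)) / 5, by omega⟩
    constructor
    · rw [hk, show 2 * (8 * k + 1) ^ 2 - 1 = 8 * (16 * k ^ 2 + 4 * k) + 1 by ring]
      omega
    · rw [hl, show 2 * (5 * l + 2) ^ 2 - 1 = 5 * (10 * l ^ 2 + 8 * l + 1) + 2 by ring]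
      omega

/-- `-10` is no square modulo `V (2 ^ e)` for `e ≥ 2`. -/
theorem not_modEq_neg_ten (e : ℕ) (z : ℤ) : ¬z ^ 2 ≡ -10 [ZMOD V (2 ^ (e + 2))] := by
  intro h
  obtain ⟨h8, h5⟩ := V_two_pow e
  set v := (V (2 ^ (e + 2))).toNat
  have hv : (v : ℤ) = V (2 ^ (e + 2)) := Int.toNat_of_nonneg (V_pos_U_nonneg _).1.le
  rw [← hv] at h h8 h5
  have hodd : Odd v := Nat.odd_iff.2 (by omega)
  have h10 : jacobiSym (-10) v = -1 := by
    rw [show (-10 : ℤ) = -1 * 2 * 5 by norm_num, jacobiSym.mul_left, jacobiSym.mul_left,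
      jacobiSym.at_neg_one hodd, jacobiSym.at_two hodd, ZMod.χ₄_nat_one_mod_four (by omega),
      ZMod.χ₈_nat_eq_if_mod_eight, if_neg (by omega), if_pos (by omega), one_mul, one_mul,
      show ((5 : ℤ)) = ((5 : ℕ) : ℤ) by norm_num,
      jacobiSym.quadratic_reciprocity_one_mod_four (by norm_num) hodd,
      jacobiSym.mod_left, show ((v : ℤ)) % ((5 : ℕ) : ℤ) = 2 by push_cast; omega]
    norm_num
  have hsq : jacobiSym (-10) v = jacobiSym (z ^ 2) v :=
    (jacobiSym.mod_left' h).symm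
  rw [h10, jacobiSym.pow_left] at hsq
  nlinarith [sq_nonneg (jacobiSym z v)]

theorem V_mod_eight (j : ℕ) :
    (V (4 * j) % 8 = 1 ∧ U (4 * j) % 8 = 0) ∧ V (4 * j + 2) % 8 = 7 ∧ V (4 * j + 1) % 2 = 0 ∧
      V (4 * j + 3) % 2 = 0 := by
  have key : V (4 * j) % 8 = 1 ∧ U (4 * j) % 8 = 0 := by
    induction j with
    | zero => simp [V_zero, U_zero]
    | succ j ih =>
      rw [Nat.mul_succ, (add_formula (4 * j) 4).1, (add_formula (4 * j) 4).2,
        show V 4 = 97 from rfl, show U 4 = 56 from rfl]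
      omega
  refine ⟨key, ?_⟩
  rw [show 4 * j + 3 = 4 * j + 2 + 1 from rfl, show 4 * j + 2 = 4 * j + 1 + 1 from rfl]
  simp only [V_succ, U_succ]
  omega

/-- `V n = 4 M ² + 3` only for `n = 2`. -/
theorem eq_two_of_V_eq {n : ℕ} {M : ℤ} (h : V n = 4 * M ^ 2 + 3) : n = 2 := by
  obtain ⟨j, rfl⟩ : ∃ j, n = 4 * j + 2 := by
    obtain ⟨⟨h0, -⟩, -, h1, h3⟩ := V_mod_eight (n / 4)
    refine ⟨n / 4, ?_⟩
    rcases (show n % 4 = 0 ∨ n % 4 = 1 ∨ n % 4 = 2 ∨ n % 4 = 3 by omega) with e | e | e | e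
    · rw [show 4 * (n / 4) = n by omega, h] at h0
      omega
    · rw [show 4 * (n / 4) + 1 = n by omega, h] at h1
      omega
    · omega
    · rw [show 4 * (n / 4) + 3 = n by omega, h] at h3
      omega
  by_contra hne
  have key : ∀ e o : ℕ, Odd o →
      (4 * j + 2 = 2 * 2 ^ (e + 2) * o + 2 ∨ 4 * j + 2 + 2 = 2 * 2 ^ (e + 2) * o) → False := by
    intro e o ho hcase
    obtain ⟨hV, hU⟩ := modEq_mul (2 ^ (e + 2)) o
    rw [ho.neg_one_pow] at hV
    have hn : V (4 * j + 2) ≡ -7 [ZMOD V (2 ^ (e + 2))] := by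
      rcases hcase with hc | hc
      · rw [hc, (add_formula _ 2).1, show V 2 = 7 from rfl, show U 2 = 4 from rfl]
        have := (hV.mul_right 7).add ((hU.mul_left 3).mul_right 4)
        simpa using this
      · have h2 : V (4 * j + 2) = 7 * V (4 * j + 2 + 2) - 12 * U (4 * j + 2 + 2) := by
          rw [(add_formula (4 * j + 2) 2).1, (add_formula (4 * j + 2) 2).2,
            show V 2 = 7 from rfl, show U 2 = 4 from rfl]
          ring
        rw [h2, hc]
        have := (hV.mul_left 7).sub (hU.mul_left 12)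
        simpa using this
    refine not_modEq_neg_ten e (2 * M) ?_
    have := hn.sub_right 3
    rw [h] at this
    norm_num at this
    rw [mul_pow]
    norm_num
    exact this
  rcases Nat.even_or_odd' j with ⟨t, rfl | rfl⟩
  · obtain ⟨e, o, ho, hd⟩ := Nat.exists_eq_two_pow_mul_odd (show t ≠ 0 by omega)
    refine key e o ho (Or.inl ?_)
    rw [hd]
    ring
  · obtain ⟨e, o, ho, hd⟩ := Nat.exists_eq_two_pow_mul_odd (show t + 1 ≠ 0 by omega)
    refine key e o ho (Or.inr ?_)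
    rw [show 4 * (2 * t + 1) + 2 + 2 = 8 * (t + 1) by ring, hd]
    ring

/-- Every solution is a `V n`. -/
theorem exists_sol : ∀ (u v : ℕ), (v : ℤ) ^ 2 - 3 * (u : ℤ) ^ 2 = 1 →
    ∃ n, (v : ℤ) = V n ∧ (u : ℤ) = U n := by
  intro u
  induction u using Nat.strong_induction_on with
  | _ u ih =>
    intro v h
    rcases Nat.eq_zero_or_pos u with rfl | hu
    · refine ⟨0, ?_, by simp [U_zero]⟩
      simp at h
      rw [V_zero]
      subst h
      norm_num
    have h1 : 3 * u < 2 * v := by zify; nlinarith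
    have h2 : v ≤ 2 * u := by zify; nlinarith
    have h3 : u < v := by zify; nlinarith
    obtain ⟨n, hn, hn'⟩ := ih (2 * u - v) (by omega) (2 * v - 3 * u) (by
      rw [Nat.cast_sub h1.le, Nat.cast_sub h2]
      push_cast
      linear_combination h)
    refine ⟨n + 1, ?_, ?_⟩
    · rw [V_succ, ← hn, ← hn', Nat.cast_sub h1.le, Nat.cast_sub h2]
      push_cast
      ring
    · rw [U_succ, ← hn, ← hn', Nat.cast_sub h1.le, Nat.cast_sub h2]
      push_cast
      ring

/-- A solution with `v = 4 M ² + 3` has `v = 7`. -/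
theorem eq_seven {v u M : ℤ} (h : v ^ 2 - 3 * u ^ 2 = 1) (hM : v = 4 * M ^ 2 + 3) : v = 7 := by
  have hv : 0 ≤ v := by rw [hM]; positivity
  obtain ⟨n, hn, -⟩ := exists_sol u.natAbs v.natAbs (by rw [Int.natAbs_sq, Int.natAbs_sq]; exact h)
  rw [Int.natAbs_of_nonneg hv] at hn
  obtain rfl := eq_two_of_V_eq (n := n) (M := M) (hn.symm.trans hM)
  exact hn

end FA.Cannonball
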